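/-
PROJECT E (S16), slice E-UB2 (the prime `l = 2`), file (U2-s): the level-3 power series.

Integer power series `a3` (weight 2), `b3` (weight 4), `e3` (weight 6), `c3` (weight 6) which are the
`q`-expansions of the forms `α = (3 E₂(3z) - E₂(z))/2`, `β = (E₄(z) - E₄(3z))/240`,
`ε₆ = (E₆(3z) - E₆(z))/504`, `γ = (ε₆ - αβ)/12` on `Γ₀(3)`, and the congruences between them:
`a3 ≡ 1 + 4 b3 (mod 8)`, `e3 ≡ b3 (mod 8)`, `12 c3 = e3 - a3 b3`, `c3 ≡ b3² (mod 2)`,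
`b3 = q + …`, `c3 = q² + …`.  Mathlib only; no modular forms here.
-/
import Mathlib

set_option autoImplicit false

namespace Fermat.Agent.S16.UB2.Series3

open PowerSeries
open scoped ArithmeticFunction.sigma

/-! ### Reduction of integer power series modulo `n` -/

/-- Reduction of an integer power series modulo `n`. -/
noncomputable abbrev red (n : ℕ) : ℤ⟦X⟧ →+* (ZMod n)⟦X⟧ := PowerSeries.map (Int.castRingHom (ZMod n))

theorem coeff_red (n k : ℕ) (f : ℤ⟦X⟧) : coeff k (red n f) = ((coeff k f : ℤ) : ZMod n) := by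
  simp [red]

/-- A power series reduces to `0` modulo `n` iff it is divisible by `n`. -/
theorem red_eq_zero_iff (n : ℕ) (f : ℤ⟦X⟧) : red n f = 0 ↔ ∃ g : ℤ⟦X⟧, f = (n : ℤ⟦X⟧) * g := by
  constructor
  · intro h
    have hdvd : ∀ k, (n : ℤ) ∣ coeff k f := fun k => by
      have := congrArg (coeff k) h
      rw [coeff_red, map_zero] at this
      exact (ZMod.intCast_zmod_eq_zero_iff_dvd _ _).1 this
    refine ⟨PowerSeries.mk fun k => coeff k f / n, ?_⟩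
    ext k
    have hn : ((n : ℤ⟦X⟧)) = C (n : ℤ) := by simp
    rw [hn, coeff_C_mul, coeff_mk, Int.mul_ediv_cancel' (hdvd k)]
  · rintro ⟨g, rfl⟩
    rw [map_mul, map_natCast]
    have : ((n : ℕ) : (ZMod n)⟦X⟧) = 0 := by
      rw [← map_natCast (C : ZMod n →+* (ZMod n)⟦X⟧) n, ZMod.natCast_self, map_zero]
    rw [this, zero_mul]

/-! ### Divisor sums -/

/-- `S k = ∑ σ_k(n) qⁿ`. -/
noncomputable def S (k : ℕ) : ℤ⟦X⟧ := PowerSeries.mk fun n => (σ k n : ℤ)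

/-- `S' k = ∑ σ_k(n) q^{3n}`. -/
noncomputable def S' (k : ℕ) : ℤ⟦X⟧ :=
  PowerSeries.mk fun n => if 3 ∣ n then (σ k (n / 3) : ℤ) else 0

@[simp] theorem coeff_S (k n : ℕ) : coeff n (S k) = (σ k n : ℤ) := coeff_mk _ _

@[simp] theorem coeff_S' (k n : ℕ) :
    coeff n (S' k) = if 3 ∣ n then (σ k (n / 3) : ℤ) else 0 := coeff_mk _ _

/-- Termwise congruences give congruences of divisor sums. -/
theorem sigma_cast_congr {R : Type*} [CommRing R] (c c' : R) (j k : ℕ)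
    (h : ∀ x : R, c * x ^ j = c' * x ^ k) (n : ℕ) :
    c * ((σ j n : ℕ) : R) = c' * ((σ k n : ℕ) : R) := by
  simp only [ArithmeticFunction.sigma_apply, Nat.cast_sum, Nat.cast_pow, Finset.mul_sum]
  exact Finset.sum_congr rfl fun d _ => h d

theorem red_S_congr (m : ℕ) (c c' : ZMod m) (j k : ℕ)
    (h : ∀ x : ZMod m, c * x ^ j = c' * x ^ k) :
    C c * red m (S j) = C c' * red m (S k) := by
  ext n
  rw [coeff_C_mul, coeff_C_mul, coeff_red, coeff_red, coeff_S, coeff_S, Int.cast_natCast,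
    Int.cast_natCast]
  exact sigma_cast_congr c c' j k h n

theorem red_S'_congr (m : ℕ) (c c' : ZMod m) (j k : ℕ)
    (h : ∀ x : ZMod m, c * x ^ j = c' * x ^ k) :
    C c * red m (S' j) = C c' * red m (S' k) := by
  ext n
  rw [coeff_C_mul, coeff_C_mul, coeff_red, coeff_red, coeff_S', coeff_S']
  split_ifs
  · rw [Int.cast_natCast, Int.cast_natCast]
    exact sigma_cast_congr c c' j k h _
  · simp

/-! ### The four series -/

/-- `a3 = 1 + 12 ∑ (σ(n) - 3σ(n/3)) qⁿ`, the `q`-expansion of `(3E₂(3z) - E₂(z))/2`. -/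
noncomputable def a3 : ℤ⟦X⟧ := 1 + 12 * (S 1 - 3 * S' 1)

/-- `b3 = ∑ σ₃(n)(qⁿ - q³ⁿ)`, the `q`-expansion of `(E₄(z) - E₄(3z))/240`. -/
noncomputable def b3 : ℤ⟦X⟧ := S 3 - S' 3

/-- `e3 = ∑ σ₅(n)(qⁿ - q³ⁿ)`, the `q`-expansion of `(E₆(3z) - E₆(z))/504`. -/
noncomputable def e3 : ℤ⟦X⟧ := S 5 - S' 5

theorem numeral_eq_C {R : Type*} [CommRing R] (n : ℕ) : ((n : ℕ) : R⟦X⟧) = C ((n : ℕ) : R) := by
  simp

/-- `a3 ≡ 1 + 4 b3 (mod 8)`. -/
theorem red_a3 : red 8 a3 = 1 + 4 * red 8 b3 := by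
  have h1 : C (12 : ZMod 8) * red 8 (S 1) = C (4 : ZMod 8) * red 8 (S 3) :=
    red_S_congr 8 12 4 1 3 (by decide)
  have h2 : C (36 : ZMod 8) * red 8 (S' 1) = C (4 : ZMod 8) * red 8 (S' 3) :=
    red_S'_congr 8 36 4 1 3 (by decide)
  have e12 : (12 : (ZMod 8)⟦X⟧) = C (12 : ZMod 8) := by
    rw [show (12 : (ZMod 8)⟦X⟧) = ((12 : ℕ) : (ZMod 8)⟦X⟧) by norm_cast, numeral_eq_C]; norm_cast
  have e36 : (36 : (ZMod 8)⟦X⟧) = C (36 : ZMod 8) := by
    rw [show (36 : (ZMod 8)⟦X⟧) = ((36 : ℕ) : (ZMod 8)⟦X⟧) by norm_cast, numeral_eq_C]; norm_cast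
  have e4 : (4 : (ZMod 8)⟦X⟧) = C (4 : ZMod 8) := by
    rw [show (4 : (ZMod 8)⟦X⟧) = ((4 : ℕ) : (ZMod 8)⟦X⟧) by norm_cast, numeral_eq_C]; norm_cast
  have : red 8 a3 = 1 + (12 * red 8 (S 1) - 36 * red 8 (S' 1)) := by
    simp only [a3, map_add, map_one, map_mul, map_sub, map_ofNat]
    ring
  rw [this, e12, e36, h1, h2, b3, map_sub, e4]
  ring

/-- `e3 ≡ b3 (mod 24)`. -/
theorem red_e3 : red 24 e3 = red 24 b3 := by
  have h1 : C (1 : ZMod 24) * red 24 (S 5) = C (1 : ZMod 24) * red 24 (S 3) :=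
    red_S_congr 24 1 1 5 3 (by decide)
  have h2 : C (1 : ZMod 24) * red 24 (S' 5) = C (1 : ZMod 24) * red 24 (S' 3) :=
    red_S'_congr 24 1 1 5 3 (by decide)
  simp only [map_one, one_mul] at h1 h2
  rw [e3, b3, map_sub, map_sub, h1, h2]

/-- `a3 ≡ 1 (mod 12)`: `a3 = 1 + 12 y3`. -/
noncomputable def y3 : ℤ⟦X⟧ := S 1 - 3 * S' 1

theorem a3_eq : a3 = 1 + 12 * y3 := rfl

/-- `e3 - a3 b3` is divisible by `12`. -/
theorem exists_c3 : ∃ c : ℤ⟦X⟧, e3 - a3 * b3 = 12 * c := by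
  obtain ⟨z, hz⟩ := (red_eq_zero_iff 24 (e3 - b3)).1 (by rw [map_sub, red_e3, sub_self])
  refine ⟨2 * z - y3 * b3, ?_⟩
  have : e3 - a3 * b3 = (e3 - b3) - 12 * y3 * b3 := by rw [a3_eq]; ring
  rw [this, hz]
  push_cast
  ring

/-- `c3 = (e3 - a3 b3)/12`, the `q`-expansion of `γ = η(3z)¹⁸/η(z)⁶`. -/
noncomputable def c3 : ℤ⟦X⟧ := exists_c3.choose

theorem c3_spec : e3 - a3 * b3 = 12 * c3 := exists_c3.choose_spec

/-! ### Low coefficients -/

theorem sigma_one_right (k : ℕ) : σ k 1 = 1 := by simp [ArithmeticFunction.sigma_apply]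

theorem sigma_two (k : ℕ) : σ k 2 = 1 + 2 ^ k := by
  rw [ArithmeticFunction.sigma_apply, Nat.Prime.divisors Nat.prime_two]
  simp

theorem coeff_zero_S (k : ℕ) : coeff 0 (S k) = 0 := by simp

theorem coeff_zero_S' (k : ℕ) : coeff 0 (S' k) = 0 := by simp

theorem coeff_one_S (k : ℕ) : coeff 1 (S k) = 1 := by simp

theorem coeff_one_S' (k : ℕ) : coeff 1 (S' k) = 0 := by simp

theorem coeff_two_S (k : ℕ) : coeff 2 (S k) = 1 + 2 ^ k := by simp [sigma_two]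

theorem coeff_two_S' (k : ℕ) : coeff 2 (S' k) = 0 := by simp

theorem coeff_zero_b3 : coeff 0 b3 = 0 := by
  rw [b3, map_sub, coeff_zero_S, coeff_zero_S', sub_zero]

theorem coeff_one_b3 : coeff 1 b3 = 1 := by
  rw [b3, map_sub, coeff_one_S, coeff_one_S', sub_zero]

theorem coeff_two_b3 : coeff 2 b3 = 9 := by
  rw [b3, map_sub, coeff_two_S, coeff_two_S']; norm_num

theorem coeff_zero_e3 : coeff 0 e3 = 0 := by
  rw [e3, map_sub, coeff_zero_S, coeff_zero_S', sub_zero]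

theorem coeff_one_e3 : coeff 1 e3 = 1 := by
  rw [e3, map_sub, coeff_one_S, coeff_one_S', sub_zero]

theorem coeff_two_e3 : coeff 2 e3 = 33 := by
  rw [e3, map_sub, coeff_two_S, coeff_two_S']; norm_num

theorem ofNat_eq_C (n : ℕ) [n.AtLeastTwo] : (OfNat.ofNat n : ℤ⟦X⟧) = C (OfNat.ofNat n : ℤ) := by
  rw [map_ofNat]

theorem coeff_y3 (n : ℕ) : coeff n y3 = coeff n (S 1) - 3 * coeff n (S' 1) := by
  rw [y3, map_sub, ofNat_eq_C 3, coeff_C_mul]

theorem coeff_a3 (n : ℕ) : coeff n a3 = coeff n (1 : ℤ⟦X⟧) + 12 * coeff n y3 := by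
  rw [a3_eq, map_add, ofNat_eq_C 12, coeff_C_mul]

/-- Coefficient formula for `a3` (for matching with the `q`-expansion of `(3E₂(3z) - E₂(z))/2`). -/
theorem coeff_a3' (n : ℕ) : coeff n a3 = (if n = 0 then 1 else 0) +
    12 * ((σ 1 n : ℤ) - 3 * (if 3 ∣ n then (σ 1 (n / 3) : ℤ) else 0)) := by
  rw [coeff_a3, coeff_y3, coeff_S, coeff_S', coeff_one]

/-- Coefficient formula for `b3` (for matching with the `q`-expansion of `(E₄(z) - E₄(3z))/240`). -/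
theorem coeff_b3 (n : ℕ) :
    coeff n b3 = (σ 3 n : ℤ) - (if 3 ∣ n then (σ 3 (n / 3) : ℤ) else 0) := by
  rw [b3, map_sub, coeff_S, coeff_S']

/-- Coefficient formula for `e3` (for matching with the `q`-expansion of `(E₆(3z) - E₆(z))/504`). -/
theorem coeff_e3 (n : ℕ) :
    coeff n e3 = (σ 5 n : ℤ) - (if 3 ∣ n then (σ 5 (n / 3) : ℤ) else 0) := by
  rw [e3, map_sub, coeff_S, coeff_S']

theorem coeff_zero_a3 : coeff 0 a3 = 1 := by
  rw [coeff_a3, coeff_y3, coeff_zero_S, coeff_zero_S']; simp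

theorem coeff_one_a3 : coeff 1 a3 = 12 := by
  rw [coeff_a3, coeff_y3, coeff_one_S, coeff_one_S', coeff_one]; simp

theorem coeff_zero_mul (f g : ℤ⟦X⟧) : coeff 0 (f * g) = coeff 0 f * coeff 0 g := by
  simp [coeff_mul]

theorem coeff_one_mul (f g : ℤ⟦X⟧) :
    coeff 1 (f * g) = coeff 0 f * coeff 1 g + coeff 1 f * coeff 0 g := by
  rw [coeff_mul, show (Finset.HasAntidiagonal.antidiagonal 1 : Finset (ℕ × ℕ)) = {(0,1),(1,0)}
    from rfl]
  simp

theorem coeff_two_mul (f g : ℤ⟦X⟧) :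
    coeff 2 (f * g) = coeff 0 f * coeff 2 g + coeff 1 f * coeff 1 g + coeff 2 f * coeff 0 g := by
  rw [coeff_mul, show (Finset.HasAntidiagonal.antidiagonal 2 : Finset (ℕ × ℕ)) =
    {(0,2),(1,1),(2,0)} from rfl]
  simp [add_assoc]

theorem coeff_c3_aux (n : ℕ) : 12 * coeff n c3 = coeff n e3 - coeff n (a3 * b3) := by
  have := congrArg (coeff n) c3_spec
  rw [ofNat_eq_C 12, coeff_C_mul, map_sub] at this
  exact this.symm

theorem coeff_zero_c3 : coeff 0 c3 = 0 := by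
  have := coeff_c3_aux 0
  rw [coeff_zero_mul, coeff_zero_e3, coeff_zero_b3] at this
  omega

theorem coeff_one_c3 : coeff 1 c3 = 0 := by
  have := coeff_c3_aux 1
  rw [coeff_one_mul, coeff_one_e3, coeff_zero_b3, coeff_one_b3, coeff_zero_a3] at this
  omega

theorem coeff_two_c3 : coeff 2 c3 = 1 := by
  have := coeff_c3_aux 2
  rw [coeff_two_mul, coeff_two_e3, coeff_zero_b3, coeff_one_b3, coeff_two_b3, coeff_zero_a3,
    coeff_one_a3] at this
  omega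

/-! ### `c3 ≡ b3² (mod 2)` -/

/-- `12 c3 + 4 b3² ≡ 0 (mod 8)`. -/
theorem red_c3_aux : red 8 (12 * c3 + 4 * b3 ^ 2) = 0 := by
  have he : red 8 e3 = red 8 b3 := by
    obtain ⟨z, hz⟩ := (red_eq_zero_iff 24 (e3 - b3)).1 (by rw [map_sub, red_e3, sub_self])
    have : e3 = b3 + 8 * (3 * z) := by
      have : e3 = b3 + (e3 - b3) := by ring
      rw [this, hz]; push_cast; ring
    rw [this, map_add, map_mul]
    have h8 : red 8 8 = 0 := by
      rw [show (8 : ℤ⟦X⟧) = ((8 : ℕ) : ℤ⟦X⟧) by norm_cast]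
      exact (red_eq_zero_iff 8 _).2 ⟨1, by simp⟩
    rw [h8, zero_mul, add_zero]
  rw [← c3_spec, map_add, map_sub, map_mul, map_mul, map_pow, he, red_a3, map_ofNat]
  ring

/-- `c3 ≡ b3² (mod 2)`. -/
theorem red_c3 : red 2 c3 = red 2 b3 ^ 2 := by
  obtain ⟨w, hw⟩ := (red_eq_zero_iff 8 _).1 red_c3_aux
  rw [← map_pow]
  ext n
  rw [coeff_red, coeff_red, ZMod.intCast_eq_intCast_iff_dvd_sub]
  have h := congrArg (coeff n) hw
  rw [map_add, ofNat_eq_C 12, ofNat_eq_C 4, coeff_C_mul, coeff_C_mul,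
    show ((8 : ℕ) : ℤ⟦X⟧) = C (8 : ℤ) by simp, coeff_C_mul] at h
  have h' : (12 : ℤ) * coeff n c3 + 4 * coeff n (b3 ^ 2) = 8 * coeff n w := h
  push_cast
  omega

/-- `a3 ≡ 1 (mod 4)`, in the form `a3 ≡ 1 (mod 2)`. -/
theorem red_two_a3 : red 2 a3 = 1 := by
  rw [a3_eq, map_add, map_one, map_mul]
  have : red 2 12 = 0 := by
    rw [show (12 : ℤ⟦X⟧) = ((2 : ℕ) : ℤ⟦X⟧) * 6 by norm_num]
    exact (red_eq_zero_iff 2 _).2 ⟨6, rfl⟩
  rw [this, zero_mul, add_zero]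

/-- The reduction `B = b3 mod 2 = q + q² + q³ + q⁴ + q⁶ + …`. -/
noncomputable def Bser : (ZMod 2)⟦X⟧ := red 2 b3

theorem coeff_zero_Bser : coeff 0 Bser = 0 := by
  rw [Bser, coeff_red, coeff_zero_b3, Int.cast_zero]

theorem coeff_one_Bser : coeff 1 Bser = 1 := by
  rw [Bser, coeff_red, coeff_one_b3, Int.cast_one]

end Fermat.Agent.S16.UB2.Series3
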