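/-
PROJECT E (S16), slice E-UB2 (the prime `l = 2`), file (U2-d): the degree bound (L3).

Abstract form of: "a modular form of weight `w = 2v` on `Γ₀(3)` with integer `q`-expansion is a
`ℤ`-combination of the monic forms `f_d = αⁱ βʲ γˡ` (`j = d mod 2`, `l = ⌊d/2⌋`, `3d ≤ w`); hence its
reduction modulo `2` is a polynomial of degree `≤ w/3` in `B = β mod 2`" – and the powers of `B`
are linearly independent, so a polynomial in `B` of degree `> w/3` is not such a reduction.

The family of modular forms enters only through a predicate `Mem w f` ("`f` is the `q`-expansion of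
a form of weight `w` on `Γ₀(3)`") with the closure properties and the Sturm property as hypotheses.
-/
import Mathlib
import Fermat.Agent.S16.UB2.Series3

set_option autoImplicit false

namespace Fermat.Agent.S16.UB2.DegreeBound

open PowerSeries Fermat.Agent.S16.UB2.Series3

/-! ### Monic series of a given order -/

/-- `f = X^d · u` with `u(0) = 1`. -/
def MonicAt (f : ℤ⟦X⟧) (d : ℕ) : Prop := ∃ u : ℤ⟦X⟧, f = X ^ d * u ∧ constantCoeff u = 1

theorem MonicAt.mul {f g : ℤ⟦X⟧} {a b : ℕ} (hf : MonicAt f a) (hg : MonicAt g b) :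
    MonicAt (f * g) (a + b) := by
  obtain ⟨u, rfl, hu⟩ := hf
  obtain ⟨v, rfl, hv⟩ := hg
  refine ⟨u * v, by ring, ?_⟩
  rw [map_mul, hu, hv, one_mul]

theorem MonicAt.one : MonicAt 1 0 := ⟨1, by simp, by simp⟩

theorem MonicAt.pow {f : ℤ⟦X⟧} {a : ℕ} (hf : MonicAt f a) (k : ℕ) : MonicAt (f ^ k) (a * k) := by
  induction k with
  | zero => simpa using MonicAt.one
  | succ k ih =>
    rw [pow_succ, Nat.mul_succ]
    exact ih.mul hf

theorem MonicAt.coeff_lt {f : ℤ⟦X⟧} {d : ℕ} (hf : MonicAt f d) {n : ℕ} (hn : n < d) :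
    coeff n f = 0 := by
  obtain ⟨u, rfl, -⟩ := hf
  rw [coeff_X_pow_mul', if_neg (by omega)]

theorem MonicAt.coeff_self {f : ℤ⟦X⟧} {d : ℕ} (hf : MonicAt f d) : coeff d f = 1 := by
  obtain ⟨u, rfl, hu⟩ := hf
  rw [coeff_X_pow_mul', if_pos le_rfl, Nat.sub_self, coeff_zero_eq_constantCoeff_apply, hu]

theorem monicAt_a3 : MonicAt a3 0 :=
  ⟨a3, by simp, by rw [← coeff_zero_eq_constantCoeff_apply, coeff_zero_a3]⟩

theorem monicAt_b3 : MonicAt b3 1 := by
  have h0 : constantCoeff b3 = 0 := by rw [← coeff_zero_eq_constantCoeff_apply, coeff_zero_b3]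
  obtain ⟨u, hu⟩ := X_dvd_iff.2 h0
  refine ⟨u, by rw [hu, pow_one], ?_⟩
  have h1 := coeff_one_b3
  rw [hu, show (1 : ℕ) = 0 + 1 from rfl, coeff_succ_X_mul] at h1
  rw [← coeff_zero_eq_constantCoeff_apply, h1]

theorem monicAt_c3 : MonicAt c3 2 := by
  have h0 : X ^ 2 ∣ c3 := by
    rw [X_pow_dvd_iff]
    intro m hm
    interval_cases m
    · exact coeff_zero_c3
    · exact coeff_one_c3
  obtain ⟨u, hu⟩ := h0
  refine ⟨u, hu, ?_⟩
  have h1 := coeff_two_c3
  rw [hu, coeff_X_pow_mul', if_pos le_rfl, Nat.sub_self] at h1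
  rw [← coeff_zero_eq_constantCoeff_apply, h1]

/-- The monic "basis" element of order `d`: `a3ⁱ · b3^(d mod 2) · c3^(d / 2)`. -/
noncomputable def fd (i d : ℕ) : ℤ⟦X⟧ := a3 ^ i * (b3 ^ (d % 2) * c3 ^ (d / 2))

theorem monicAt_fd (i d : ℕ) : MonicAt (fd i d) d := by
  have h := (monicAt_a3.pow i).mul ((monicAt_b3.pow (d % 2)).mul (monicAt_c3.pow (d / 2)))
  have hd : 0 * i + (1 * (d % 2) + 2 * (d / 2)) = d := by omega
  rw [hd] at h
  exact h

theorem red_fd (i d : ℕ) : red 2 (fd i d) = Bser ^ d := by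
  rw [fd, map_mul, map_mul, map_pow, map_pow, map_pow, red_two_a3, red_c3, one_pow, one_mul,
    ← pow_mul, ← pow_add]
  congr 1
  omega

/-! ### Powers of `B` are independent -/

theorem constantCoeff_Bser : constantCoeff Bser = 0 := by
  rw [← coeff_zero_eq_constantCoeff_apply, coeff_zero_Bser]

theorem Bser_ne_zero : Bser ≠ 0 := by
  intro h
  have := coeff_one_Bser
  rw [h, map_zero] at this
  exact zero_ne_one this

theorem constantCoeff_aeval_Bser (P : Polynomial (ZMod 2)) :
    constantCoeff (Polynomial.aeval Bser P) = P.coeff 0 := by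
  induction P using Polynomial.induction_on' with
  | add p q hp hq => rw [map_add, map_add, hp, hq, Polynomial.coeff_add]
  | monomial n a =>
    rw [Polynomial.aeval_monomial, map_mul, map_pow, constantCoeff_Bser, Polynomial.coeff_monomial]
    rcases Nat.eq_zero_or_pos n with rfl | hn
    · simp
    · rw [zero_pow hn.ne', mul_zero, if_neg hn.ne']

/-- `P ↦ P(B)` is injective: the powers of `B` are linearly independent over `𝔽₂`. -/
theorem aeval_Bser_injective :
    Function.Injective (Polynomial.aeval Bser : Polynomial (ZMod 2) → (ZMod 2)⟦X⟧) := by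
  rw [injective_iff_map_eq_zero]
  intro P hP
  by_contra hne
  obtain ⟨Q, hQ, hnd⟩ := Polynomial.exists_eq_pow_rootMultiplicity_mul_and_not_dvd P hne 0
  rw [map_zero, sub_zero] at hQ hnd
  rw [hQ, map_mul, map_pow, Polynomial.aeval_X] at hP
  rcases mul_eq_zero.1 hP with h | h
  · exact Bser_ne_zero (pow_eq_zero_iff (by
      intro h0; rw [h0, pow_zero] at h; exact one_ne_zero h) |>.1 h)
  · apply hnd
    rw [Polynomial.X_dvd_iff, ← constantCoeff_aeval_Bser, h, map_zero]

/-! ### The abstract degree bound -/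

section Abstract

variable (Mem : ℕ → ℤ⟦X⟧ → Prop)

/-- The hypotheses on the family `Mem w` of `q`-expansions of weight `w` forms on `Γ₀(3)`. -/
structure Level3Family : Prop where
  one : Mem 0 1
  sub : ∀ w f g, Mem w f → Mem w g → Mem w (f - g)
  zsmul : ∀ w (c : ℤ) f, Mem w f → Mem w (C c * f)
  mul_a3 : ∀ w f, Mem w f → Mem (w + 2) (a3 * f)
  mul_b3 : ∀ w f, Mem w f → Mem (w + 4) (b3 * f)
  mul_c3 : ∀ w f, Mem w f → Mem (w + 6) (c3 * f)
  sturm : ∀ w f, Mem w f → (∀ n, 3 * n ≤ w → coeff n f = 0) → f = 0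

variable {Mem}

theorem Level3Family.mem_pow_a3 (h : Level3Family Mem) (i : ℕ) {w : ℕ} {f : ℤ⟦X⟧}
    (hf : Mem w f) : Mem (w + 2 * i) (a3 ^ i * f) := by
  induction i with
  | zero => simpa using hf
  | succ i ih =>
    have := h.mul_a3 _ _ ih
    rwa [← mul_assoc, ← pow_succ', add_assoc, ← Nat.mul_succ] at this

theorem Level3Family.mem_pow_b3 (h : Level3Family Mem) (i : ℕ) {w : ℕ} {f : ℤ⟦X⟧}
    (hf : Mem w f) : Mem (w + 4 * i) (b3 ^ i * f) := by
  induction i with
  | zero => simpa using hf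
  | succ i ih =>
    have := h.mul_b3 _ _ ih
    rwa [← mul_assoc, ← pow_succ', add_assoc, ← Nat.mul_succ] at this

theorem Level3Family.mem_pow_c3 (h : Level3Family Mem) (i : ℕ) {w : ℕ} {f : ℤ⟦X⟧}
    (hf : Mem w f) : Mem (w + 6 * i) (c3 ^ i * f) := by
  induction i with
  | zero => simpa using hf
  | succ i ih =>
    have := h.mul_c3 _ _ ih
    rwa [← mul_assoc, ← pow_succ', add_assoc, ← Nat.mul_succ] at this

/-- `f_d` has weight `2v` as soon as `3d ≤ 2v`. -/
theorem Level3Family.mem_fd (h : Level3Family Mem) {v d : ℕ} (hd : 3 * d ≤ 2 * v) :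
    Mem (2 * v) (fd (v - 2 * (d % 2) - 3 * (d / 2)) d) := by
  have h1 := h.mem_pow_c3 (d / 2) h.one
  have h2 := h.mem_pow_b3 (d % 2) h1
  have h3 := h.mem_pow_a3 (v - 2 * (d % 2) - 3 * (d / 2)) h2
  have hw : 0 + 6 * (d / 2) + 4 * (d % 2) + 2 * (v - 2 * (d % 2) - 3 * (d / 2)) = 2 * v := by
    omega
  rw [hw, mul_one, ← mul_assoc] at h3
  rw [fd, ← mul_assoc]
  exact h3

/-- Triangular elimination. -/
theorem Level3Family.exists_elim (h : Level3Family Mem) (v : ℕ) (f : ℤ⟦X⟧) (hf : Mem (2 * v) f) :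
    ∀ k, 3 * k ≤ 2 * v + 3 → ∃ (g : ℤ⟦X⟧) (P : Polynomial (ZMod 2)), Mem (2 * v) g ∧
      (∀ n < k, coeff n g = 0) ∧ P.degree < k ∧ red 2 f = red 2 g + Polynomial.aeval Bser P := by
  intro k
  induction k with
  | zero =>
    intro _
    exact ⟨f, 0, hf, fun n hn => absurd hn (Nat.not_lt_zero n), by simp, by simp⟩
  | succ k ih =>
    intro hk
    obtain ⟨g, P, hg, hg0, hP, hfg⟩ := ih (by omega)
    have hd : 3 * k ≤ 2 * v := by omega
    set F := fd (v - 2 * (k % 2) - 3 * (k / 2)) k with hF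
    have hFm : Mem (2 * v) F := h.mem_fd hd
    have hFmon : MonicAt F k := monicAt_fd _ _
    set c : ℤ := coeff k g with hc
    refine ⟨g - C c * F, P + Polynomial.C (c : ZMod 2) * Polynomial.X ^ k,
      h.sub _ _ _ hg (h.zsmul _ _ _ hFm), ?_, ?_, ?_⟩
    · intro n hn
      rw [map_sub, coeff_C_mul]
      rcases Nat.lt_succ_iff_lt_or_eq.1 hn with hlt | rfl
      · rw [hg0 n hlt, hFmon.coeff_lt hlt, mul_zero, sub_zero]
      · rw [hFmon.coeff_self, mul_one, sub_self]
    · refine lt_of_le_of_lt (Polynomial.degree_add_le _ _) (max_lt ?_ ?_)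
      · exact lt_of_lt_of_le hP (by exact_mod_cast Nat.le_succ k)
      · exact lt_of_le_of_lt (Polynomial.degree_C_mul_X_pow_le _ _) (by exact_mod_cast Nat.lt_succ_self k)
    · rw [hfg, map_sub, map_mul, red_fd, map_add, map_mul, map_pow, Polynomial.aeval_X,
        Polynomial.aeval_C]
      have hC : red 2 (C c) = C (c : ZMod 2) := by
        rw [red, map_C]; rfl
      rw [hC]
      have : algebraMap (ZMod 2) (ZMod 2)⟦X⟧ (c : ZMod 2) = C (c : ZMod 2) := rfl
      rw [this]
      ring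

/-- **The degree bound (L3)**: the reduction mod `2` of a weight `2v` member is a polynomial of
degree `≤ 2v/3` in `B`. -/
theorem Level3Family.exists_poly (h : Level3Family Mem) (v : ℕ) (f : ℤ⟦X⟧) (hf : Mem (2 * v) f) :
    ∃ P : Polynomial (ZMod 2), 3 * P.natDegree ≤ 2 * v ∧ red 2 f = Polynomial.aeval Bser P := by
  obtain ⟨g, P, hg, hg0, hP, hfg⟩ := h.exists_elim v f hf (2 * v / 3 + 1) (by omega)
  have hg' : g = 0 := h.sturm _ g hg fun n hn => hg0 n (by omega)
  rw [hg', map_zero, zero_add] at hfg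
  refine ⟨P, ?_, hfg⟩
  rcases eq_or_ne P 0 with rfl | hne
  · simp
  · have := (Polynomial.natDegree_lt_iff_degree_lt hne).2 hP
    omega

/-- A polynomial in `B` which is the reduction of a weight `2v` member has degree `≤ 2v/3`. -/
theorem Level3Family.natDegree_le (h : Level3Family Mem) (v : ℕ) (f : ℤ⟦X⟧) (hf : Mem (2 * v) f)
    (P : Polynomial (ZMod 2)) (hP : red 2 f = Polynomial.aeval Bser P) :
    3 * P.natDegree ≤ 2 * v := by
  obtain ⟨Q, hQ, hfQ⟩ := h.exists_poly v f hf
  have : P = Q := aeval_Bser_injective (hP.symm.trans hfQ)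
  rw [this]
  exact hQ

/-- **The contradiction used for `l = 2`**: `B (B + ε)^p` has degree `p + 1 > 2(p+1)/3` in `B`, so
it is not the reduction of a weight `2(p+1)` member. -/
theorem Level3Family.false_of_red (h : Level3Family Mem) (p : ℕ) (ε : ZMod 2) (f : ℤ⟦X⟧)
    (hf : Mem (2 * (p + 1)) f) (hred : red 2 f = Bser * (Bser + C ε) ^ p) : False := by
  have hP : red 2 f = Polynomial.aeval Bser
      (Polynomial.X * (Polynomial.X + Polynomial.C ε) ^ p : Polynomial (ZMod 2)) := by
    rw [hred, map_mul, map_pow, map_add, Polynomial.aeval_X, Polynomial.aeval_C]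
    rfl
  have hdeg := h.natDegree_le (p + 1) f hf _ hP
  have hnd : (Polynomial.X * (Polynomial.X + Polynomial.C ε) ^ p : Polynomial (ZMod 2)).natDegree
      = p + 1 := by
    rw [Polynomial.natDegree_mul Polynomial.X_ne_zero
      (pow_ne_zero _ (Polynomial.X_add_C_ne_zero ε)), Polynomial.natDegree_X,
      Polynomial.natDegree_pow, Polynomial.natDegree_X_add_C]
    ring
  rw [hnd] at hdeg
  omega

end Abstract

end Fermat.Agent.S16.UB2.DegreeBound
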