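import Mathlib
import Fermat.Prelude.Thm_ModularForm_sturm_bound_Gamma0
import Fermat.Agent.S20.CountFinal

/-!
# PROJECT E (S16), slice E-UB2 (U2-b): the Sturm bound for `Γ₀(3)`

A modular form of weight `w` on `Γ₀(3)` whose `q`-expansion coefficients `a_n` vanish for all
`n ≤ w / 3` is zero (`[SL(2,ℤ) : Γ₀(3)] = 4`, prelude Sturm bound for `Γ₀(N)`).  More generally
`sturm_prime` for `Γ₀(p)`, `p` prime: `a_n = 0` for `n ≤ w (p + 1) / 12` forces `f = 0`.
-/

set_option autoImplicit false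
set_option linter.style.haveILetI false

namespace Fermat.Agent.S16.UB2.Sturm3

open UpperHalfPlane CongruenceSubgroup
open scoped MatrixGroups

theorem dedekindPsi_prime {p : ℕ} (hp : p.Prime) : ModularCurve.dedekindPsi p = p + 1 := by
  rw [ModularCurve.dedekindPsi, hp.divisors, Finset.filter_insert, Finset.filter_singleton,
    if_pos squarefree_one, if_pos hp.squarefree,
    Finset.sum_insert (by simpa using hp.one_lt.ne), Finset.sum_singleton,
    Nat.div_one, Nat.div_self hp.pos]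

/-- `[SL(2,ℤ) : Γ₀(p)] = p + 1` for `p` prime. -/
theorem index_Gamma0_prime (p : ℕ) [Fact p.Prime] : (Gamma0 p).index = p + 1 := by
  haveI : NeZero p := ⟨(Fact.out : p.Prime).ne_zero⟩
  rw [Fermat.Agent.S20.CountFinal.index_Gamma0, dedekindPsi_prime Fact.out]

theorem index_Gamma0_three : (Gamma0 3).index = 4 := by
  haveI : Fact (Nat.Prime 3) := ⟨Nat.prime_three⟩
  exact index_Gamma0_prime 3

/-- **Sturm bound for `Γ₀(p)`**, natural weight. -/
theorem sturm_prime (p : ℕ) [Fact p.Prime] {w : ℕ} (f : ModularForm (Gamma0 p) (w : ℤ))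
    (h : ∀ n : ℕ, 12 * n ≤ w * (p + 1) → (qExpansion 1 f).coeff n = 0) : f = 0 := by
  haveI : NeZero p := ⟨(Fact.out : p.Prime).ne_zero⟩
  refine ModularForm.sturm_bound_Gamma0 p f fun n hn => h n ?_
  rw [index_Gamma0_prime p] at hn
  have h1 : ((w : ℤ) * ((p + 1 : ℕ) : ℤ)).toNat = w * (p + 1) := by
    rw [← Nat.cast_mul, Int.toNat_natCast]
  rw [h1] at hn
  have := Nat.mul_le_of_le_div 12 n (w * (p + 1)) hn
  omega

/-- **Sturm bound for `Γ₀(3)`**: a form of weight `w` with `a_n = 0` for all `n ≤ w / 3` is zero. -/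
theorem sturm3 {w : ℕ} (f : ModularForm (Gamma0 3) (w : ℤ))
    (h : ∀ n : ℕ, 3 * n ≤ w → (qExpansion 1 f).coeff n = 0) : f = 0 := by
  haveI : Fact (Nat.Prime 3) := ⟨Nat.prime_three⟩
  exact sturm_prime 3 f fun n hn => h n (by omega)

/-- The same for an integer weight (forms of negative weight vanish). -/
theorem sturm3_int {k : ℤ} (f : ModularForm (Gamma0 3) k)
    (h : ∀ n : ℕ, 3 * (n : ℤ) ≤ k → (qExpansion 1 f).coeff n = 0) : f = 0 := by
  rcases lt_or_ge k 0 with hk | hk
  · exact ModularForm.isZero_of_neg_weight hk f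
  · lift k to ℕ using hk
    exact sturm3 f fun n hn => h n (by exact_mod_cast hn)

end Fermat.Agent.S16.UB2.Sturm3
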