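import Mathlib
import Fermat.Agent.S16.LevelRaise
import Fermat.Agent.S16.Eis2
import Fermat.Agent.S16.WT.Defs
import Fermat.Agent.S16.UB2.Series3
import Fermat.Agent.S16.UB2.DegreeBound
import Fermat.Agent.S16.UB2.Sturm3

/-!
# S16 / E-UB2 (U2-a): the forms `α, β, ε₆, γ` on `Γ₀(3)` and the family of integral forms

* `beta3 = (E₄(z) - E₄(3z))/240 ∈ M₄(Γ₀(3))`, `eps6 = (E₆(3z) - E₆(z))/504 ∈ M₆(Γ₀(3))`,
  `gamma3 = (eps6 - alpha3 · beta3)/12 ∈ M₆(Γ₀(3))` (with `alpha3` from `Eis2`);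
* their `q`-expansions are the integer series `b3`, `e3`, `c3` of `Series3` (and `a3` for
  `alpha3`), mapped to `ℂ`;
* `Mem3 w f`: the integer power series `f` is the `q`-expansion of a form of weight `w` on
  `Γ₀(3)`; `level3Family : DegreeBound.Level3Family Mem3` (closure properties + Sturm).
-/

set_option autoImplicit false

namespace Fermat.Agent.S16.UB2.Level3Forms

open UpperHalfPlane ModularForm CongruenceSubgroup ModularFormClass PowerSeries EisensteinSeries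
open Fermat.Agent.S16 Fermat.Agent.S16.LevelRaise Fermat.Agent.S16.UB2.Series3
open scoped MatrixGroups ArithmeticFunction.sigma

/-- `1` is a strict period of `Γ₀(3)`. -/
theorem one_mem_sp :
    (1 : ℝ) ∈ ((Gamma0 3 : Subgroup SL(2, ℤ)) : Subgroup (GL (Fin 2) ℝ)).strictPeriods :=
  CongruenceSubgroup.one_mem_strictPeriods_Gamma0 3

/-- `β = (E₄(z) - E₄(3z))/240`. -/
noncomputable def beta3 : ModularForm (Gamma0 3) 4 :=
  (1 / 240 : ℂ) • (incl 3 E₄ - raise 3 E₄)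

/-- `ε₆ = (E₆(3z) - E₆(z))/504`. -/
noncomputable def eps6 : ModularForm (Gamma0 3) 6 :=
  (1 / 504 : ℂ) • (raise 3 E₆ - incl 3 E₆)

/-- `αβ` in weight `6`. -/
noncomputable def alphabeta : ModularForm (Gamma0 3) 6 :=
  ModularForm.mcast (by norm_num) (Eis2.alpha3.mul beta3)

/-- `γ = (ε₆ - αβ)/12`. -/
noncomputable def gamma3 : ModularForm (Gamma0 3) 6 :=
  (1 / 12 : ℂ) • (eps6 - alphabeta)

/-- Casting integer power series to `ℂ`. -/
noncomputable abbrev toC (f : ℤ⟦X⟧) : ℂ⟦X⟧ := f.map (Int.castRingHom ℂ)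

theorem toC_injective : Function.Injective toC := by
  intro f g h
  ext n
  have := congrArg (coeff n) h
  simpa [toC] using this

theorem qExpansion_beta3 :
    qExpansion 1 beta3 = (1 / 240 : ℂ) • (qExpansion 1 E₄ - expand 3 (by norm_num) (qExpansion 1 E₄)) := by
  rw [beta3, show ⇑((1 / 240 : ℂ) • (incl 3 E₄ - raise 3 E₄)) =
      (1 / 240 : ℂ) • ⇑(incl 3 E₄ - raise 3 E₄) from rfl,
    ModularForm.qExpansion_smul one_pos one_mem_sp,
    show ⇑(incl 3 E₄ - raise 3 E₄) = ⇑(incl 3 E₄) - ⇑(raise 3 E₄) from rfl,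
    ModularForm.qExpansion_sub one_pos one_mem_sp, qExpansion_incl, qExpansion_raise]

theorem qExpansion_eps6 :
    qExpansion 1 eps6 = (1 / 504 : ℂ) • (expand 3 (by norm_num) (qExpansion 1 E₆) - qExpansion 1 E₆) := by
  rw [eps6, show ⇑((1 / 504 : ℂ) • (raise 3 E₆ - incl 3 E₆)) =
      (1 / 504 : ℂ) • ⇑(raise 3 E₆ - incl 3 E₆) from rfl,
    ModularForm.qExpansion_smul one_pos one_mem_sp,
    show ⇑(raise 3 E₆ - incl 3 E₆) = ⇑(raise 3 E₆) - ⇑(incl 3 E₆) from rfl,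
    ModularForm.qExpansion_sub one_pos one_mem_sp, qExpansion_incl, qExpansion_raise]

/-- `qExpansion 1 α = a3`. -/
theorem map_a3 : toC a3 = qExpansion 1 Eis2.alpha3 := by
  ext n
  have h := Eis2.qCoeff_alpha3_eq n
  rw [ModularFormClass.qCoeff] at h
  rw [toC, coeff_map, coeff_a3', h]
  split_ifs <;> simp

/-- Coefficientwise comparison used for `β` and `ε₆`. -/
theorem coeff_aux (c : ℂ) (hc : c ≠ 0) (k : ℕ) (Z : ℤ⟦X⟧) (cz : ℤ) (hcz : (cz : ℂ) = c)
    (hZ : ∀ n, coeff n Z = if n = 0 then 1 else cz * (σ k n : ℤ)) (n : ℕ) :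
    (((σ k n : ℤ) - (if 3 ∣ n then (σ k (n / 3) : ℤ) else 0) : ℤ) : ℂ) =
      c⁻¹ * (coeff n (toC Z) - coeff n (expand 3 (by norm_num) (toC Z))) := by
  rw [coeff_expand]
  simp only [toC, coeff_map, hZ, eq_intCast]
  by_cases h3 : 3 ∣ n
  · rw [if_pos h3, if_pos h3]
    obtain ⟨m, rfl⟩ := h3
    rw [Nat.mul_div_cancel_left _ (by norm_num : 0 < 3)]
    rcases Nat.eq_zero_or_pos m with rfl | hm
    · simp
    · rw [if_neg (by omega), if_neg (by omega)]
      push_cast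
      rw [hcz]
      field_simp
  · rw [if_neg h3, if_neg h3]
    have hn : n ≠ 0 := fun h => h3 (h ▸ dvd_zero 3)
    rw [if_neg hn]
    push_cast
    rw [hcz]
    field_simp
    ring

/-- `qExpansion 1 β = b3`. -/
theorem map_b3 : toC b3 = qExpansion 1 beta3 := by
  ext n
  rw [qExpansion_beta3, ← WT.map_Qz, toC, coeff_map, coeff_b3, coeff_smul, LinearMap.map_sub,
    eq_intCast, coeff_aux 240 (by norm_num) 3 WT.Qz 240 (by norm_num) WT.coeff_Qz n, smul_eq_mul]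
  norm_num

/-- `qExpansion 1 ε₆ = e3`. -/
theorem map_e3 : toC e3 = qExpansion 1 eps6 := by
  ext n
  rw [qExpansion_eps6, ← WT.map_Rz, toC, coeff_map, coeff_e3, coeff_smul, LinearMap.map_sub,
    eq_intCast, coeff_aux (-504) (by norm_num) 5 WT.Rz (-504) (by norm_num) WT.coeff_Rz n,
    smul_eq_mul]
  ring

theorem qExpansion_gamma3 :
    qExpansion 1 gamma3 =
      (1 / 12 : ℂ) • (qExpansion 1 eps6 - qExpansion 1 Eis2.alpha3 * qExpansion 1 beta3) := by
  rw [gamma3, show ⇑((1 / 12 : ℂ) • (eps6 - alphabeta)) =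
      (1 / 12 : ℂ) • ⇑(eps6 - alphabeta) from rfl,
    ModularForm.qExpansion_smul one_pos one_mem_sp,
    show ⇑(eps6 - alphabeta) = ⇑eps6 - ⇑(Eis2.alpha3.mul beta3) from rfl,
    ModularForm.qExpansion_sub one_pos one_mem_sp,
    ModularForm.qExpansion_mul one_pos one_mem_sp]

/-- `qExpansion 1 γ = c3`. -/
theorem map_c3 : toC c3 = qExpansion 1 gamma3 := by
  rw [qExpansion_gamma3, ← map_e3, ← map_a3, ← map_b3]
  have h := congrArg toC c3_spec
  simp only [toC, map_sub, map_mul] at h ⊢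
  rw [h]
  ext n
  have h12 : (map (Int.castRingHom ℂ)) (12 : ℤ⟦X⟧) = C (12 : ℂ) := by
    rw [ofNat_eq_C 12, map_C]
    simp
  rw [h12, coeff_smul, coeff_C_mul, smul_eq_mul]
  ring

/-! ### The family of integral forms on `Γ₀(3)` -/

/-- `f` is the `q`-expansion of a form of weight `w` on `Γ₀(3)`. -/
def Mem3 (w : ℕ) (f : ℤ⟦X⟧) : Prop :=
  ∃ F : ModularForm (Gamma0 3) (w : ℤ), qExpansion 1 F = toC f

theorem mem3_one : Mem3 0 1 :=
  ⟨ModularForm.mcast (by simp) (1 : ModularForm (Gamma0 3) 0), by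
    rw [ModularForm.qExpansion_mcast, ModularForm.qExpansion_one]
    simp [toC]⟩

theorem mem3_sub (w : ℕ) (f g : ℤ⟦X⟧) (hf : Mem3 w f) (hg : Mem3 w g) : Mem3 w (f - g) := by
  obtain ⟨F, hF⟩ := hf
  obtain ⟨G, hG⟩ := hg
  refine ⟨F - G, ?_⟩
  rw [show ⇑(F - G) = ⇑F - ⇑G from rfl, ModularForm.qExpansion_sub one_pos one_mem_sp, hF, hG]
  simp [toC]

theorem mem3_zsmul (w : ℕ) (c : ℤ) (f : ℤ⟦X⟧) (hf : Mem3 w f) : Mem3 w (C c * f) := by
  obtain ⟨F, hF⟩ := hf
  refine ⟨(c : ℂ) • F, ?_⟩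
  rw [show ⇑((c : ℂ) • F) = (c : ℂ) • ⇑F from rfl,
    ModularForm.qExpansion_smul one_pos one_mem_sp, hF]
  ext n
  rw [toC, toC, map_mul, map_C, coeff_smul, coeff_C_mul, coeff_map, eq_intCast, eq_intCast,
    smul_eq_mul]

theorem mem3_mul {v : ℤ} (A : ModularForm (Gamma0 3) v) (a : ℤ⟦X⟧) (hA : toC a = qExpansion 1 A)
    (d : ℕ) (hd : v = d) (w : ℕ) (f : ℤ⟦X⟧) (hf : Mem3 w f) : Mem3 (w + d) (a * f) := by
  obtain ⟨F, hF⟩ := hf
  refine ⟨ModularForm.mcast (by rw [hd]; push_cast; ring) (A.mul F), ?_⟩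
  rw [ModularForm.qExpansion_mcast, ModularForm.qExpansion_mul one_pos one_mem_sp, hF, ← hA]
  simp [toC]

theorem mem3_sturm (w : ℕ) (f : ℤ⟦X⟧) (hf : Mem3 w f)
    (h : ∀ n, 3 * n ≤ w → coeff n f = 0) : f = 0 := by
  obtain ⟨F, hF⟩ := hf
  have hF0 : F = 0 := Sturm3.sturm3 F fun n hn => by
    rw [hF, toC, coeff_map, h n hn, map_zero]
  apply toC_injective
  rw [← hF, hF0, show ⇑(0 : ModularForm (Gamma0 3) (w : ℤ)) = 0 from rfl, qExpansion_zero]
  simp [toC]

/-- **The family of integral forms on `Γ₀(3)` satisfies the hypotheses of the degree bound.** -/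
theorem level3Family : DegreeBound.Level3Family Mem3 where
  one := mem3_one
  sub := mem3_sub
  zsmul := mem3_zsmul
  mul_a3 := mem3_mul Eis2.alpha3 a3 map_a3 2 (by norm_num)
  mul_b3 := mem3_mul beta3 b3 map_b3 4 (by norm_num)
  mul_c3 := mem3_mul gamma3 c3 map_c3 6 (by norm_num)
  sturm := mem3_sturm

/-- **(L3) for actual forms**: the reduction mod `2` of the integral `q`-expansion of a form of
weight `2v` on `Γ₀(3)` is a polynomial of degree `≤ 2v/3` in `B`. -/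
theorem exists_poly_of_form (v : ℕ) (F : ModularForm (Gamma0 3) ((2 * v : ℕ) : ℤ)) (f : ℤ⟦X⟧)
    (hf : qExpansion 1 F = toC f) :
    ∃ P : Polynomial (ZMod 2), 3 * P.natDegree ≤ 2 * v ∧ red 2 f = Polynomial.aeval Bser P :=
  level3Family.exists_poly v f ⟨F, hf⟩

/-- **The contradiction used for `l = 2`**, for actual forms: `B (B + ε)^p` is not the reduction
mod `2` of the integral `q`-expansion of a form of weight `2(p+1)` on `Γ₀(3)`. -/
theorem false_of_form (p : ℕ) (ε : ZMod 2) (F : ModularForm (Gamma0 3) ((2 * (p + 1) : ℕ) : ℤ))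
    (f : ℤ⟦X⟧) (hf : qExpansion 1 F = toC f) (hred : red 2 f = Bser * (Bser + C ε) ^ p) : False :=
  level3Family.false_of_red p ε f ⟨F, hf⟩ hred

end Fermat.Agent.S16.UB2.Level3Forms
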