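/-
PROJECT E (S16), slice E-UB2 (the prime `l = 2`), file (U2-c3): from the core to the statement.

* `qx_alpha3`: the `q`-expansion of `Eis2.alpha3` is `a3`;
* `level3Data_of`: `Level3Data` from `β` (weight 4) and `ε₆` (weight 6) on `Γ₀(3)` with
  `q`-expansions `b3`, `e3` (`γ := (ε₆ - αβ)/12`);
* `ub2_of`: for `p ≡ 3 (mod 4)`, `Level3Data → ¬ EisensteinCongruence p 2`
  (`H := 12 E_p - 12 f₀` has integral `q`-expansion `≡ (p-1)/2 (mod 8)`).
-/
import Mathlib
import Fermat.Agent.S16.UB2.CoreForm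
import Fermat.Agent.S16.Eis2
import Fermat.Agent.S16.RedDefs

set_option autoImplicit false

noncomputable section

namespace Fermat.Agent.S16.UB2.MainOf

open UpperHalfPlane CongruenceSubgroup ModularFormClass ModularForm PowerSeries
open Fermat.Agent.S20 Fermat.Agent.S23.QRing Fermat.Agent.S16.Trace
open Fermat.Agent.S16.UB2.Series3 Fermat.Agent.S16.UB2.CoreForm Fermat.Agent.S16.Reduction

open scoped ModularForm Manifold MatrixGroups ArithmeticFunction.sigma

/-! ### The form `α` -/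

theorem qx_alpha3 : qx ⇑Eis2.alpha3 = toC a3 := by
  ext n
  rw [qx_coeff, Eis2.qCoeff_alpha3_eq, coeff_map, coeff_a3']
  split_ifs <;> simp

/-! ### The form `γ` -/

theorem level3Data_of {β ε : ℍ → ℂ} (hβ : IsMF (G0 3) 4 β) (hqβ : qx β = toC b3)
    (hε : IsMF (G0 3) 6 ε) (hqε : qx ε = toC e3) : Level3Data where
  alpha := ⟨⇑Eis2.alpha3, IsMF.coe _, qx_alpha3⟩
  beta := ⟨β, hβ, hqβ⟩
  gamma := by
    have hα : IsMF (G0 3) 2 ⇑Eis2.alpha3 := IsMF.coe _
    have hαβ : IsMF (G0 3) 6 (⇑Eis2.alpha3 * β) := (hα.mul hβ).cast (by norm_num)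
    refine ⟨(1 / 12 : ℂ) • (ε - ⇑Eis2.alpha3 * β), (hε.sub hαβ).smul _, ?_⟩
    rw [qx_smul _ (isQ_of_isMF (hε.sub hαβ)), qx_sub (isQ_of_isMF hε) (isQ_of_isMF hαβ),
      qx_mul (isQ_of_isMF hα) (isQ_of_isMF hβ), hqε, hqβ, qx_alpha3, ← map_mul, ← map_sub,
      c3_spec, map_mul, smul_eq_C_mul, ← mul_assoc]
    have : toC (12 : ℤ⟦X⟧) = C (12 : ℂ) := by
      rw [show (12 : ℤ⟦X⟧) = C (12 : ℤ) by rw [map_ofNat], toC_C]; norm_num
    rw [this, ← map_mul]
    norm_num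

/-! ### The form `H = 12 E_p - 12 f₀` -/

variable {p : ℕ} [Fact p.Prime]

theorem isMF_of_cuspForm {N : ℕ} {k : ℤ} (f : CuspForm (Gamma0 N) k) : IsMF (G0 N) k ⇑f :=
  ⟨{ toSlashInvariantForm := f.toSlashInvariantForm
     holo' := f.holo'
     bdd_at_cusps' := fun hc γ hγ => (f.zero_at_cusps' hc γ hγ).isBoundedAtImInfty }, rfl⟩

/-- **`l = 2`, `p ≡ 3 (mod 4)`**: there is no cusp form `f₀ ∈ S₂(Γ₀(p))` with integral
coefficients congruent to `σ'(n)` modulo `2`. -/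
theorem ub2_of (L : Level3Data) (hp4 : p % 4 = 3) : ¬ EisensteinCongruence p 2 := by
  rintro ⟨f, hf⟩
  have : NeZero p := ⟨(Fact.out : p.Prime).ne_zero⟩
  choose c hc hdvd using hf
  -- `p - 1 = 2 m`, `m` odd
  obtain ⟨m, hm⟩ : ∃ m : ℕ, p = 2 * m + 1 := ⟨p / 2, by omega⟩
  have hmodd : Odd (m : ℤ) := by
    have : Odd m := Nat.odd_iff.2 (by omega)
    exact_mod_cast this
  -- the form `H`
  have hE : IsMF (G0 p) 2 ⇑(Eis2.eisP p) := IsMF.coe _
  have hf' : IsMF (G0 p) 2 ⇑f := isMF_of_cuspForm f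
  have hH : IsMF (G0 p) 2 ((12 : ℂ) • ⇑(Eis2.eisP p) - (12 : ℂ) • ⇑f) :=
    (hE.smul _).sub (hf'.smul _)
  -- its integral `q`-expansion
  set F : ℤ⟦X⟧ := PowerSeries.mk fun n =>
    if n = 0 then (m : ℤ) - 12 * c 0 else 12 * (sigmaP p n : ℤ) - 12 * c n with hFdef
  have hF : qx ((12 : ℂ) • ⇑(Eis2.eisP p) - (12 : ℂ) • ⇑f) = toC F := by
    rw [qx_sub ((isQ_of_isMF hE).smul _) ((isQ_of_isMF hf').smul _),
      qx_smul _ (isQ_of_isMF hE), qx_smul _ (isQ_of_isMF hf')]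
    ext n
    rw [map_sub, coeff_smul, coeff_smul, qx_coeff, qx_coeff, hc n, coeff_map, hFdef, coeff_mk]
    rcases Nat.eq_zero_or_pos n with rfl | hn
    · rw [Eis2.qCoeff_eisP_zero, if_pos rfl, hm, eq_intCast]
      push_cast
      ring
    · rw [Eis2.qCoeff_eisP p hn, if_neg hn.ne', eq_intCast]
      simp only [sigmaP, smul_eq_mul]
      push_cast
      ring
  -- the congruence modulo `8`
  have hF8 : red 8 F = C ((m : ℤ) : ZMod 8) := by
    ext n
    rw [coeff_red, hFdef, coeff_mk, coeff_C]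
    rcases Nat.eq_zero_or_pos n with rfl | hn
    · rw [if_pos rfl, if_pos rfl]
      obtain ⟨d, hd⟩ := hdvd 0
      have h0 : c 0 = 2 * d := by
        have : sigmaP p 0 = 0 := by simp [sigmaP]
        rw [this] at hd
        push_cast at hd
        linarith
      rw [h0]
      push_cast
      have h24 : (12 * (2 * (d : ZMod 8))) = 0 := by
        have : (12 * (2 * (d : ZMod 8))) = 8 * (3 * d) := by ring
        rw [this]
        have h8 : (8 : ZMod 8) = 0 := by decide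
        rw [h8, zero_mul]
      rw [h24, sub_zero]
    · rw [if_neg hn.ne', if_neg hn.ne']
      obtain ⟨d, hd⟩ := hdvd n
      have hcn : c n = (sigmaP p n : ℤ) + 2 * d := by push_cast at hd ⊢; linarith
      rw [hcn]
      push_cast
      have : (12 * (sigmaP p n : ZMod 8) - 12 * ((sigmaP p n : ZMod 8) + 2 * (d : ZMod 8)))
          = 8 * (-3 * d) := by ring
      rw [this]
      have h8 : (8 : ZMod 8) = 0 := by decide
      rw [h8, zero_mul]
  exact core L hp4 hH F hF (m : ℤ) hmodd hF8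

end Fermat.Agent.S16.UB2.MainOf
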