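/-
PROJECT E (S16), slice E-UB2: the upper bound at the prime `l = 2`.

`ub2 : p % 8 = 7 → ¬ EisensteinCongruence p 2` (in fact for every `p ≡ 3 (mod 4)`): there is no cusp
form `f₀ ∈ S₂(Γ₀(p))` with integral `q`-coefficients congruent to `σ'(n)` modulo `2`.

Proof (norm to level 3): `H := 12 E_p - 12 f₀ ∈ M₂(Γ₀(p))` has integral `q`-expansion
`≡ (p-1)/2 (mod 8)`; the product `N` over the cosets of `Γ₀(p)` in `SL₂(ℤ)` of `(M α - H|c)`,
`α = (3E₂(3z) - E₂(z))/2`, lies in `M_{2(p+1)}(Γ₀(3))`, and `(p^p / 4^{p+1}) N` has integral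
`q`-expansion `≡ B (B + ε)^p (mod 2)`, `B = β mod 2`, a polynomial of degree `p + 1 > 2(p+1)/3` in
`B` - impossible for a form of weight `2(p+1)` on `Γ₀(3)` (Sturm bound + the monic basis
`αⁱ βʲ γˡ`).
-/
import Mathlib
import Fermat.Agent.S16.UB2.MainOf
import Fermat.Agent.S16.UB2.Level3Forms

set_option autoImplicit false

namespace Fermat.Agent.S16.UB2.Main

open Fermat.Agent.S20 Fermat.Agent.S16.Reduction

/-- The forms `α, β, γ` on `Γ₀(3)` with their integral `q`-expansions. -/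
theorem level3Data : CoreForm.Level3Data :=
  MainOf.level3Data_of (β := ⇑Level3Forms.beta3) (ε := ⇑Level3Forms.eps6) (IsMF.coe _)
    Level3Forms.map_b3.symm (IsMF.coe _) Level3Forms.map_e3.symm

/-- `l = 2`: for `p ≡ 3 (mod 4)` there is no Eisenstein congruence modulo `2`. -/
theorem ub2_of_mod_four (p : ℕ) [Fact p.Prime] (h : p % 4 = 3) : ¬ EisensteinCongruence p 2 :=
  MainOf.ub2_of level3Data h

/-- **E-UB2**: the special case `l = 2`, `p ≡ 7 (mod 8)` of the upper bound. -/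
theorem ub2 (p : ℕ) [Fact p.Prime] : p % 8 = 7 → ¬ EisensteinCongruence p 2 :=
  fun h => ub2_of_mod_four p (by omega)

end Fermat.Agent.S16.UB2.Main
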