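/-
PROJECT E (S16), slice E-UB2 (the prime `l = 2`), file (U2-c1): the formal computation.

`F ∈ ℤ⟦q⟧` with `F ≡ M (mod 8)`, `M` odd (the `q`-expansion of `H = 12 E_p - 12 f₀`), `U = U_p F`.
Then `M·a3 - F = 4 X₀` with `X₀ ≡ B (mod 2)` and, for `p ≡ 3 (mod 4)`,
`p·M·a3(t^p) + U(t) = 4 Ψ₀` with `Ψ₀ ≡ (ε + B)(t^p) (mod 2)`, hence
`X₀ · N(Ψ₀) ≡ B (B + ε)^p (mod 2)` for the norm `N = normP p` of `ℤ⟦t⟧ / ℤ⟦t^p⟧`.
-/
import Mathlib
import Fermat.Agent.S16.UB2.Series3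
import Fermat.Agent.S16.PowerSeriesNorm

set_option autoImplicit false

namespace Fermat.Agent.S16.UB2.CoreAlg

open PowerSeries Fermat.Agent.S16.UB2.Series3 Fermat.Agent.S16.PowerSeriesNorm

theorem red_C (n : ℕ) (c : ℤ) : red n (C c) = C (c : ZMod n) := by
  rw [red, map_C]; rfl

theorem two_eq_zero : (2 : (ZMod 2)⟦X⟧) = 0 := by
  rw [← map_ofNat (C : ZMod 2 →+* (ZMod 2)⟦X⟧) 2]
  have : (2 : ZMod 2) = 0 := by decide
  rw [this, map_zero]

theorem cast_odd_zmod_two {M : ℤ} (hM : Odd M) : (M : ZMod 2) = 1 := by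
  obtain ⟨k, rfl⟩ := hM
  push_cast
  have : (2 : ZMod 2) = 0 := by decide
  rw [this, zero_mul, zero_add]

/-- `M a3 - F = 4 X₀`, `X₀ ≡ B (mod 2)`. -/
theorem exists_X0 (M : ℤ) (hM : Odd M) (F : ℤ⟦X⟧) (hF : red 8 F = C (M : ZMod 8)) :
    ∃ X0 : ℤ⟦X⟧, C M * a3 - F = 4 * X0 ∧ red 2 X0 = Bser := by
  have h0 : red 8 (C M * a3 - F - 4 * (C M * b3)) = 0 := by
    rw [map_sub, map_sub, map_mul, map_mul, map_mul, red_C, red_a3, hF, map_ofNat]
    ring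
  obtain ⟨g, hg⟩ := (red_eq_zero_iff 8 _).1 h0
  refine ⟨C M * b3 + 2 * g, ?_, ?_⟩
  · have : C M * a3 - F = (C M * a3 - F - 4 * (C M * b3)) + 4 * (C M * b3) := by ring
    rw [this, hg]
    push_cast
    ring
  · rw [map_add, map_mul, map_mul, red_C, cast_odd_zmod_two hM, map_one, one_mul, map_ofNat,
      two_eq_zero, zero_mul, add_zero]
    rfl

/-- The `p`-section `U_p F = ∑ a_{pn} qⁿ`. -/
theorem red_sect_zero {p : ℕ} (hp : p ≠ 0) (M : ℤ) (F : ℤ⟦X⟧) (hF : red 8 F = C (M : ZMod 8)) :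
    red 8 (sect p 0 F) = C (M : ZMod 8) := by
  ext k
  rw [coeff_red, coeff_sect, add_zero, ← coeff_red, hF, coeff_C, coeff_C]
  have : p * k = 0 ↔ k = 0 := by
    rw [mul_eq_zero]
    exact ⟨fun h => h.resolve_left hp, fun h => Or.inr h⟩
  simp only [this]

theorem red_expand (n : ℕ) {p : ℕ} (hp : p ≠ 0) (f : ℤ⟦X⟧) :
    red n (expand p hp f) = expand p hp (red n f) := map_expand p hp _ _

theorem expand_ofNat {R : Type*} [CommRing R] {p : ℕ} (hp : p ≠ 0) (n : ℕ) [n.AtLeastTwo] :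
    expand p hp (OfNat.ofNat n : R⟦X⟧) = OfNat.ofNat n := map_ofNat _ n

/-- `p M a3(t^p) + U(t) = 4 Ψ₀`, `Ψ₀ ≡ (ε + B)(t^p) (mod 2)` for `p ≡ 3 (mod 4)`. -/
theorem exists_Psi0 {p : ℕ} (hp : p ≠ 0) (hp4 : p % 4 = 3) (M : ℤ) (hM : Odd M) (U : ℤ⟦X⟧)
    (hU : red 8 U = C (M : ZMod 8)) :
    ∃ (Ψ0 : ℤ⟦X⟧) (ε : ZMod 2), C (p : ℤ) * expand p hp (C M * a3) + U = 4 * Ψ0 ∧
      red 2 Ψ0 = expand p hp (C ε + Bser) := by
  obtain ⟨e, he⟩ : ∃ e : ℕ, p + 1 = 4 * e := ⟨(p + 1) / 4, by omega⟩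
  have hpodd : Odd (p : ℤ) := by
    have : Odd p := Nat.odd_iff.2 (by omega)
    exact_mod_cast this
  have h0 : red 8 (C (p : ℤ) * expand p hp (C M * a3) + U
      - 4 * (C (M * e) + C ((p : ℤ) * M) * expand p hp b3)) = 0 := by
    have h4e : ((p : ZMod 8) + 1) = 4 * (e : ZMod 8) := by
      exact_mod_cast congrArg (Nat.cast (R := ZMod 8)) he
    have hC : (C ((p : ZMod 8)) + 1 : (ZMod 8)⟦X⟧) = 4 * C (e : ZMod 8) := by
      rw [← map_one (C : ZMod 8 →+* (ZMod 8)⟦X⟧), ← map_add, h4e, map_mul, map_ofNat]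
    have hA : red 8 (expand p hp (C M * a3)) =
        C (M : ZMod 8) * (1 + 4 * expand p hp (red 8 b3)) := by
      rw [red_expand, map_mul (red 8), red_C, red_a3, map_mul (expand p hp), expand_C,
        map_add (expand p hp), map_one, map_mul (expand p hp), expand_ofNat]
    have hB : red 8 (C (p : ℤ) * expand p hp (C M * a3)) =
        C ((p : ZMod 8)) * (C (M : ZMod 8) * (1 + 4 * expand p hp (red 8 b3))) := by
      rw [map_mul (red 8), red_C, hA]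
      push_cast
      rfl
    have hD : red 8 (4 * (C (M * e) + C ((p : ℤ) * M) * expand p hp b3)) =
        4 * (C (M : ZMod 8) * C (e : ZMod 8)
          + C ((p : ZMod 8)) * C (M : ZMod 8) * expand p hp (red 8 b3)) := by
      rw [map_mul (red 8), map_ofNat, map_add (red 8), map_mul (red 8), red_C, red_C, red_expand]
      push_cast
      simp only [map_mul]
    rw [map_sub (red 8), map_add (red 8), hB, hU, hD]
    linear_combination (C (M : ZMod 8)) * hC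
  obtain ⟨g, hg⟩ := (red_eq_zero_iff 8 _).1 h0
  refine ⟨C (M * e) + C ((p : ℤ) * M) * expand p hp b3 + 2 * g, ((M * e : ℤ) : ZMod 2), ?_, ?_⟩
  · have : C (p : ℤ) * expand p hp (C M * a3) + U =
        (C (p : ℤ) * expand p hp (C M * a3) + U
          - 4 * (C (M * e) + C ((p : ℤ) * M) * expand p hp b3))
          + 4 * (C (M * e) + C ((p : ℤ) * M) * expand p hp b3) := by ring
    rw [this, hg]
    push_cast
    ring
  · rw [map_add (red 2), map_add (red 2), map_mul (red 2), map_mul (red 2), red_C, red_C,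
      map_ofNat, two_eq_zero, zero_mul, add_zero, cast_odd_zmod_two (hpodd.mul hM), map_one,
      one_mul, red_expand, map_add (expand p hp), expand_C]
    rfl

/-- **The formal core of the `l = 2` argument.** -/
theorem exists_nu {p : ℕ} (hp : p ≠ 0) (hp4 : p % 4 = 3) (M : ℤ) (hM : Odd M) (F : ℤ⟦X⟧)
    (hF : red 8 F = C (M : ZMod 8)) :
    ∃ (X0 Ψ0 : ℤ⟦X⟧) (ε : ZMod 2), C M * a3 - F = 4 * X0 ∧
      C (p : ℤ) * expand p hp (C M * a3) + sect p 0 F = 4 * Ψ0 ∧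
      red 2 (X0 * normP p Ψ0) = Bser * (Bser + C ε) ^ p := by
  obtain ⟨X0, hX0, hX0r⟩ := exists_X0 M hM F hF
  obtain ⟨Ψ0, ε, hΨ0, hΨ0r⟩ := exists_Psi0 hp hp4 M hM (sect p 0 F) (red_sect_zero hp M F hF)
  refine ⟨X0, Ψ0, ε, hX0, hΨ0, ?_⟩
  rw [map_mul, hX0r]
  have := normP_map_of_map_eq_expand p hp (Int.castRingHom (ZMod 2)) Ψ0 (C ε + Bser) hΨ0r
  rw [show red 2 (normP p Ψ0) = (C ε + Bser) ^ p from this, add_comm]

end Fermat.Agent.S16.UB2.CoreAlg
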