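/-
PROJECT E (S16), slice E-UB2 (the prime `l = 2`), file (U2-c2): the modular-forms core.

* `Mem3 w f`: `f ∈ ℤ⟦q⟧` is the `q`-expansion of a modular form of weight `w` on `Γ₀(3)`;
  `level3Family`: from the three forms `α, β, γ` (`Level3Data`) and the Sturm bound, `Mem3` is a
  `DegreeBound.Level3Family`.
* `normFun p A H = ∏_{c ∈ Γ₀(p)\SL₂(ℤ)} (A - H|c)`: for `H ∈ M₂(Γ₀(p))`, `A ∈ M₂(Γ₀(3))` this is a
  modular form of weight `2(p+1)` on `Γ₀(3)` (polynomial in `A` with level-one coefficients), and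
  its `q`-expansion is `(a - F) · N(a(t^p) + p⁻¹ U(t))` (`N` = norm of `ℂ⟦t⟧ / ℂ⟦t^p⟧`).
* `core`: no `H ∈ M₂(Γ₀(p))`, `p ≡ 3 (mod 4)`, has an integral `q`-expansion `≡ M (mod 8)`, `M` odd.
-/
import Mathlib
import Fermat.Agent.S16.UB2.CoreAlg
import Fermat.Agent.S16.UB2.DegreeBound
import Fermat.Agent.S16.UB2.Sturm3
import Fermat.Agent.S16.Conjugates
import Fermat.Agent.S16.TraceQ
import Fermat.Agent.S23.SymmForms

set_option autoImplicit false

noncomputable section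

namespace Fermat.Agent.S16.UB2.CoreForm

open UpperHalfPlane CongruenceSubgroup ModularFormClass ModularForm ModularGroup PowerSeries
open Fermat.Agent.S20 Fermat.Agent.S23.QRing Fermat.Agent.S16.Trace Fermat.Agent.S16.Conjugates
open Fermat.Agent.S16.UB2.Series3 Fermat.Agent.S16.UB2.DegreeBound Fermat.Agent.S16.UB2.CoreAlg
open Fermat.Agent.S16.PowerSeriesNorm

open scoped ModularForm Manifold MatrixGroups

/-- Integer power series as complex power series. -/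
abbrev toC : ℤ⟦X⟧ →+* ℂ⟦X⟧ := PowerSeries.map (Int.castRingHom ℂ)

theorem toC_injective : Function.Injective toC := by
  intro f g h
  ext n
  have := congrArg (coeff n) h
  rw [coeff_map, coeff_map] at this
  exact Int.cast_injective this

theorem toC_C (c : ℤ) : toC (C c) = C (c : ℂ) := by
  rw [toC, map_C]; rfl

/-! ### The family of `q`-expansions of forms on `Γ₀(3)` -/

/-- `f` is the `q`-expansion of a modular form of weight `w` on `Γ₀(3)`. -/
def Mem3 (w : ℕ) (f : ℤ⟦X⟧) : Prop := ∃ G : ℍ → ℂ, IsMF (G0 3) (w : ℤ) G ∧ qx G = toC f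

/-- The three forms `α` (weight 2), `β` (weight 4), `γ` (weight 6) on `Γ₀(3)`. -/
structure Level3Data : Prop where
  alpha : ∃ G : ℍ → ℂ, IsMF (G0 3) 2 G ∧ qx G = toC a3
  beta : ∃ G : ℍ → ℂ, IsMF (G0 3) 4 G ∧ qx G = toC b3
  gamma : ∃ G : ℍ → ℂ, IsMF (G0 3) 6 G ∧ qx G = toC c3

theorem mem3_mul {k : ℤ} {A : ℍ → ℂ} {a : ℤ⟦X⟧} (hA : IsMF (G0 3) k A) (hqA : qx A = toC a)
    {w w' : ℕ} (hw : (w' : ℤ) = k + w) {f : ℤ⟦X⟧} (hf : Mem3 w f) : Mem3 w' (a * f) := by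
  obtain ⟨G, hG, hq⟩ := hf
  refine ⟨A * G, (hA.mul hG).cast hw.symm, ?_⟩
  rw [qx_mul (isQ_of_isMF hA) (isQ_of_isMF hG), hqA, hq, map_mul]

theorem level3Family (L : Level3Data) : Level3Family Mem3 where
  one := ⟨fun _ => 1, (IsMF.const 1).cast (by simp), by rw [qx_const, map_one, map_one]⟩
  sub w f g := by
    rintro ⟨G, hG, hq⟩ ⟨G', hG', hq'⟩
    exact ⟨G - G', hG.sub hG', by
      rw [qx_sub (isQ_of_isMF hG) (isQ_of_isMF hG'), hq, hq', map_sub]⟩
  zsmul w c f := by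
    rintro ⟨G, hG, hq⟩
    exact ⟨(c : ℂ) • G, hG.smul _, by
      rw [qx_smul _ (isQ_of_isMF hG), hq, map_mul, toC_C, smul_eq_C_mul]⟩
  mul_a3 w f hf := by
    obtain ⟨A, hA, hqA⟩ := L.alpha
    exact mem3_mul hA hqA (by push_cast; ring) hf
  mul_b3 w f hf := by
    obtain ⟨A, hA, hqA⟩ := L.beta
    exact mem3_mul hA hqA (by push_cast; ring) hf
  mul_c3 w f hf := by
    obtain ⟨A, hA, hqA⟩ := L.gamma
    exact mem3_mul hA hqA (by push_cast; ring) hf
  sturm w f := by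
    rintro ⟨G, ⟨Gf, rfl⟩, hq⟩ h
    have h0 : Gf = 0 := Sturm3.sturm3 Gf fun n hn => by
      rw [show qExpansion 1 Gf = toC f from hq, coeff_map, h n hn, map_zero]
    rw [h0] at hq
    have : toC f = 0 := by
      rw [← hq]
      exact qx_zero
    exact toC_injective (this.trans (map_zero _).symm)

/-! ### The norm form -/

variable (p : ℕ) [Fact p.Prime]

/-- `∏_{c ∈ Γ₀(p)\SL₂(ℤ)} (A - H|c)`. -/
def normFun (A H : ℍ → ℂ) : ℍ → ℂ := ∏ q : Q p, (A - tr 2 H q)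

variable {p}

theorem normFun_eq_sum {A : ℍ → ℂ} (Hf : ModularForm (G0 p) 2) :
    normFun p A Hf = ∑ i ∈ Finset.range (p + 1 + 1),
      ((-1 : ℂ) ^ i) • (⇑(Fermat.Agent.S23.SymmForms.esymmForm 𝒮ℒ Hf i) * A ^ (p + 1 - i)) := by
  funext τ
  have h := Fermat.Agent.S23.SymmForms.prod_sub_quotientFunc 𝒮ℒ Hf τ (A τ)
  have hcard : Nat.card (Q p) = p + 1 := card_Q p
  rw [hcard] at h
  rw [Finset.sum_apply]
  simp only [normFun, Finset.prod_apply, Pi.sub_apply, Pi.smul_apply, Pi.mul_apply, Pi.pow_apply,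
    smul_eq_mul, Fermat.Agent.S23.SymmForms.coe_esymmForm]
  rw [← h]
  refine Finset.prod_congr rfl fun q _ => ?_
  rw [quotientFunc_eq_tr]

theorem isMF_normFun {A H : ℍ → ℂ} (hA : IsMF (G0 3) 2 A) (hH : IsMF (G0 p) 2 H) :
    IsMF (G0 3) (2 * ((p : ℤ) + 1)) (normFun p A H) := by
  obtain ⟨Hf, rfl⟩ := hH
  rw [normFun_eq_sum]
  refine IsMF.sum _ fun i hi => ?_
  rw [Finset.mem_range] at hi
  refine IsMF.smul _ ?_
  have h1 : IsMF (G0 3) (2 * (i : ℤ)) ⇑(Fermat.Agent.S23.SymmForms.esymmForm 𝒮ℒ Hf i) :=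
    (IsMF.coe _).ofLevelOne
  have h2 := hA.pow (p + 1 - i)
  refine (h1.mul h2).cast ?_
  have : ((p + 1 - i : ℕ) : ℤ) = (p : ℤ) + 1 - i := by
    rw [Nat.cast_sub (by omega)]; push_cast; ring
  rw [this]
  ring

theorem normFun_eq_mul {A H : ℍ → ℂ} (hH : IsMF (G0 p) 2 H) :
    normFun p A H = (A - H) * ∏ j : Fin p, (A - conjF 2 p (wp 2 p H) j) := by
  have hp0 : p ≠ 0 := (Fact.out : p.Prime).ne_zero
  have h := prod_tr (p := p) (fun g => A - g) hH
  rw [normFun, h]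
  congr 1
  refine Finset.prod_congr rfl fun j _ => ?_
  rw [slash_ST 2 hp0 H j]
  simp [conjF]

/-- `q`-expansion of `U_p H`. -/
theorem qx_heckeU {H : ℍ → ℂ} (hH : IsQ H) {F : ℤ⟦X⟧} (hF : qx H = toC F) :
    qx (heckeU 2 p H) = toC (sect p 0 F) := by
  have hp0 : p ≠ 0 := (Fact.out : p.Prime).ne_zero
  ext n
  rw [qx_coeff, qCoeff_heckeU_of_isQ hH 2 hp0, ← qx_coeff, hF, coeff_map, coeff_map, coeff_sect,
    add_zero, mul_comm]

theorem normP_C_mul {R : Type*} [CommRing R] {p : ℕ} (hp : p ≠ 0) (c : R) (h : R⟦X⟧) :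
    normP p (C c * h) = C c ^ p * normP p h := by
  rw [normP_mul p hp, ← expand_C p hp c, normP_expand p hp, expand_C]

/-- **`q`-expansion of the norm form.** -/
theorem qx_normFun {A H : ℍ → ℂ} (hA : IsMF (G0 3) 2 A) (hH : IsMF (G0 p) 2 H) {a F : ℤ⟦X⟧}
    (hqA : qx A = toC a) (hF : qx H = toC F) :
    qx (normFun p A H) = toC (a - F) *
      normP p (C ((p : ℂ)⁻¹) *
        toC (C (p : ℤ) * expand p (Fact.out : p.Prime).ne_zero a + sect p 0 F)) := by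
  have hp0 : p ≠ 0 := (Fact.out : p.Prime).ne_zero
  have hpC : (p : ℂ) ≠ 0 := by exact_mod_cast hp0
  have hQA : IsQ A := isQ_of_isMF hA
  have hQH : IsQ H := isQ_of_isMF hH
  have hQW : IsQ (wp 2 p H) := isQ_wp hH
  rw [normFun_eq_mul hH, qx_mul (hQA.sub hQH) (isQ_prod_sub_conjF hQW hQA), qx_sub hQA hQH, hqA, hF,
    ← map_sub]
  congr 1
  apply Conjugates.expand_injective hp0
  have hne : NeZero.ne p = hp0 := rfl
  have key := expand_qx_prod_sub_conjF (k := 2) (p := p) hQW hQA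
  rw [key]
  have hW : qExpansion 1 (wp 2 p H) = -toC (sect p 0 F) := by
    rw [wp_two_eq_neg_heckeU hH]
    have := qx_neg (isQ_heckeU hQH 2 p)
    rw [qx_heckeU hQH hF] at this
    exact this
  have hh : C ((p : ℂ)⁻¹) * toC (C (p : ℤ) * expand p hp0 a + sect p 0 F) =
      expand p hp0 (toC a) + (p : ℂ)⁻¹ • toC (sect p 0 F) := by
    rw [map_add toC, map_mul toC, toC_C, mul_add, ← mul_assoc, ← map_mul C,
      show ((p : ℂ)⁻¹ * ((p : ℤ) : ℂ)) = 1 by rw [Int.cast_natCast]; exact inv_mul_cancel₀ hpC,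
      map_one, one_mul,
      show toC (expand p hp0 a) = expand p hp0 (toC a) from map_expand p hp0 _ _, smul_eq_C_mul]
  rw [hW, hqA, ← prod_rescale_eq p hp0 (isPrimitiveRoot_zetaP hp0), hh]
  refine Finset.prod_congr rfl fun j _ => ?_
  have hz : (zetaP p ^ (j : ℕ)) ^ p = 1 := by
    rw [← pow_mul, mul_comm, pow_mul, zetaP_pow_self hp0, one_pow]
  rw [map_add (rescale _), rescale_expand_of_pow_eq_one p hp0 hz, smul_neg, map_neg,
    sub_neg_eq_add]

/-- **The modular-forms core of the `l = 2` argument**: for `p ≡ 3 (mod 4)` there is no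
`H ∈ M₂(Γ₀(p))` with integral `q`-expansion congruent to an odd constant modulo `8`. -/
theorem core (L : Level3Data) (hp4 : p % 4 = 3) {H : ℍ → ℂ} (hH : IsMF (G0 p) 2 H) (F : ℤ⟦X⟧)
    (hF : qx H = toC F) (M : ℤ) (hM : Odd M) (hF8 : red 8 F = C (M : ZMod 8)) : False := by
  have hp0 : p ≠ 0 := (Fact.out : p.Prime).ne_zero
  have hpC : (p : ℂ) ≠ 0 := by exact_mod_cast hp0
  obtain ⟨X0, Ψ0, ε, hX0, hΨ0, hred⟩ := exists_nu hp0 hp4 M hM F hF8
  obtain ⟨α, hα, hqα⟩ := L.alpha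
  -- the form `A = M α`
  have hA : IsMF (G0 3) 2 ((M : ℂ) • α) := hα.smul _
  have hqA : qx ((M : ℂ) • α) = toC (C M * a3) := by
    rw [qx_smul _ (isQ_of_isMF hα), hqα, map_mul, toC_C, smul_eq_C_mul]
  have hN := isMF_normFun hA hH
  have hqN := qx_normFun hA hH hqA hF
  have h4 : toC (4 : ℤ⟦X⟧) = C (4 : ℂ) := by
    rw [show (4 : ℤ⟦X⟧) = C (4 : ℤ) by rw [map_ofNat], toC_C]; norm_num
  have e1 : toC (C M * a3 - F) = C (4 : ℂ) * toC X0 := by rw [hX0, map_mul toC, h4]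
  have e2 : normP p (C ((p : ℂ)⁻¹) * toC (C (p : ℤ) * expand p hp0 (C M * a3) + sect p 0 F)) =
      C ((p : ℂ)⁻¹ * 4) ^ p * toC (normP p Ψ0) := by
    rw [hΨ0, map_mul toC, h4, ← mul_assoc, ← map_mul C, normP_C_mul hp0, normP_map]
  rw [e1, e2] at hqN
  -- the constant
  set c : ℂ := 4 * ((p : ℂ)⁻¹ * 4) ^ p with hc
  have hc0 : c ≠ 0 := by
    rw [hc]
    exact mul_ne_zero (by norm_num) (pow_ne_zero _ (mul_ne_zero (inv_ne_zero hpC) (by norm_num)))
  have hqN' : qx (normFun p ((M : ℂ) • α) H) = C c * toC (X0 * normP p Ψ0) := by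
    rw [hqN, hc]
    simp only [map_mul, map_pow]
    ring
  -- membership
  have hmem : Mem3 (2 * (p + 1)) (X0 * normP p Ψ0) := by
    refine ⟨c⁻¹ • normFun p ((M : ℂ) • α) H, (hN.smul _).cast (by push_cast; ring), ?_⟩
    rw [qx_smul _ (isQ_of_isMF hN), hqN', smul_eq_C_mul, ← mul_assoc, ← map_mul,
      inv_mul_cancel₀ hc0, map_one, one_mul]
  exact (level3Family L).false_of_red p ε _ hmem hred

end Fermat.Agent.S16.UB2.CoreForm
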