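import Mathlib
import Fermat.Agent.S16.UB2.Level3Forms
import Fermat.Agent.S16.UB2.CoreForm

/-!
# S16 / E-UB2: the `Level3Data` of `CoreForm` from the forms of `Level3Forms`

`level3Data : CoreForm.Level3Data` (the forms `α = alpha3`, `β = beta3`, `γ = gamma3` on `Γ₀(3)`
with `q`-expansions `a3`, `b3`, `c3`), hence `core_unconditional`: for `p ≡ 3 (mod 4)` no form in
`M₂(Γ₀(p))` has an integral `q`-expansion congruent to an odd constant modulo `8`.
-/

set_option autoImplicit false

namespace Fermat.Agent.S16.UB2.Level3Data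

open UpperHalfPlane CongruenceSubgroup ModularFormClass ModularForm PowerSeries
open Fermat.Agent.S20 Fermat.Agent.S23.QRing
open Fermat.Agent.S16 Fermat.Agent.S16.UB2.Series3 Fermat.Agent.S16.UB2

/-- The data `α, β, γ` needed by `CoreForm.core`. -/
theorem level3Data : CoreForm.Level3Data where
  alpha := ⟨Eis2.alpha3, IsMF.coe _, Level3Forms.map_a3.symm⟩
  beta := ⟨Level3Forms.beta3, IsMF.coe _, Level3Forms.map_b3.symm⟩
  gamma := ⟨Level3Forms.gamma3, IsMF.coe _, Level3Forms.map_c3.symm⟩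

/-- `CoreForm.core` without the hypothesis `Level3Data`. -/
theorem core_unconditional {p : ℕ} [Fact p.Prime] (hp4 : p % 4 = 3) {H : ℍ → ℂ}
    (hH : IsMF (G0 p) 2 H) (F : ℤ⟦X⟧) (hF : qx H = CoreForm.toC F) (M : ℤ) (hM : Odd M)
    (hF8 : red 8 F = C (M : ZMod 8)) : False :=
  CoreForm.core level3Data hp4 hH F hF M hM hF8

end Fermat.Agent.S16.UB2.Level3Data
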